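import Mathlib
import Fermat.Agent.S15.H962.NewtonVal

/-!
# S36 / MOD3, cell REG (R-I): the cusp congruence — ELEMENTARY abstract core (helper96)

Independent route to `H276.CuspCong` (the single input of `regular_i`), with `k = 1`,
`N = q - 1`, `n = 1`.  No modular unit, no Hasse polynomial, no Eisenstein series, no
`q`-expansion: only

* the Kronecker decomposition `Φ = (Y^q - X)(Y - X^q) + q Θ` over `ℤ`,
* the shape of `Φ` (`S15.H962.IsModularShape`),
* the two modular equations `Φ(j_q, j) = 0 = Φ(j_q, j_{q²})`,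
* `π = j_{q²} - j`, `q ρ = π ^ (q - 1)`.

Taylor expansion of `Φ(j_q, ·)` at `j` gives the EXACT identity

  `B² ρ = Θ(j_q, j) - B² j^(q-1) - B Θ_Y(j_q, j) - π (…)`,  `B = j - j_q ^ q`,

and, modulo an ideal `I ∋ π, q, j_q - j ^ q`, after multiplication by `J^(q-1) J_q^(2q)`
(`J = 1/j`, `J_q = 1/j_q`):

  `ρ (1 - j J_q ^ q)² J^(q-1) ≡ -(1 + J · C₀(J))`   for an integer polynomial `C₀`

(`cusp_core96`).
-/

set_option autoImplicit false

namespace Fermat.Agent.S36.Mod3.H96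

open Polynomial
open Fermat.Agent.S15.H962 (IsModularShape)

/-! ## The binomial expansion at a prime -/

section Binom

variable {A : Type*} [CommRing A]

theorem add_pow_prime96 (q : ℕ) (hq : q.Prime) (x y : A) :
    ∃ s : A, (x + y) ^ q = x ^ q + y ^ q + (q : A) * y * (x ^ (q - 1) + y * s) := by
  obtain ⟨n, rfl⟩ : ∃ n, q = n + 2 := ⟨q - 2, by have := hq.two_le; omega⟩
  refine ⟨∑ m ∈ Finset.range n,
    x ^ (m + 1) * y ^ (n - m - 1) * ((((n + 2).choose (m + 1) / (n + 2) : ℕ)) : A), ?_⟩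
  rw [add_pow, Finset.sum_range_succ, Finset.sum_range_succ, Finset.sum_range_succ']
  have hterm : ∀ m ∈ Finset.range n,
      x ^ (m + 1) * y ^ (n + 2 - (m + 1)) * (((n + 2).choose (m + 1) : ℕ) : A)
        = ((n + 2 : ℕ) : A) * y * (y * (x ^ (m + 1) * y ^ (n - m - 1) *
            ((((n + 2).choose (m + 1) / (n + 2) : ℕ)) : A))) := by
    intro m hm
    rw [Finset.mem_range] at hm
    have hdvd : (n + 2) ∣ (n + 2).choose (m + 1) :=
      hq.dvd_choose_self (by omega) (by omega)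
    have e1 : n + 2 - (m + 1) = (n - m - 1) + 2 := by omega
    have e2 : (((n + 2).choose (m + 1) : ℕ) : A)
        = ((n + 2 : ℕ) : A) * ((((n + 2).choose (m + 1) / (n + 2) : ℕ)) : A) := by
      rw [← Nat.cast_mul, Nat.mul_div_cancel' hdvd]
    rw [e1, e2, pow_add]
    ring
  rw [Finset.sum_congr rfl hterm, ← Finset.mul_sum, ← Finset.mul_sum]
  have e3 : n + 2 - (n + 1) = 1 := by omega
  have e4 : n + 2 - 1 = n + 1 := by omega
  have e5 : (n + 2).choose (n + 1) = n + 2 := by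
    rw [show n + 2 = (n + 1) + 1 from rfl, Nat.choose_succ_self_right]
  simp only [pow_zero, Nat.sub_zero, Nat.choose_zero_right, Nat.cast_one, mul_one, one_mul,
    Nat.sub_self, Nat.choose_self, e3, e4, e5, pow_one]
  ring

end Binom

/-! ## Evaluation of two-variable integer polynomials -/

section Ev

variable {A : Type*} [CommRing A]

/-- `Ψ(x, y)`: inner variable `↦ x`, outer variable `↦ y`. -/
noncomputable def ev96 (Ψ : ℤ[X][X]) (x y : A) : A :=
  Ψ.eval₂ (Polynomial.eval₂RingHom (Int.castRingHom A) x) y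

theorem ev96_kron (q : ℕ) (Θ : ℤ[X][X]) (x y : A) :
    ev96 ((X ^ q - C X) * (X - C (X ^ q)) + C (C (q : ℤ)) * Θ) x y
      = (y ^ q - x) * (y - x ^ q) + (q : A) * ev96 Θ x y := by
  simp [ev96, eval₂_add, eval₂_mul, eval₂_sub, eval₂_pow]

theorem ev96_eq_eval_map (Ψ : ℤ[X][X]) (x y : A) :
    ev96 Ψ x y = (Ψ.map (Polynomial.eval₂RingHom (Int.castRingHom A) x)).eval y := by
  rw [ev96, Polynomial.eval_map]

/-- Taylor expansion in the outer variable. -/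
theorem ev96_taylor (Ψ : ℤ[X][X]) (x y t : A) :
    ∃ k : A, ev96 Ψ x (y + t)
      = ev96 Ψ x y + ev96 (derivative Ψ) x y * t + k * t ^ 2 := by
  obtain ⟨k, hk⟩ := Polynomial.binomExpansion
    (Ψ.map (Polynomial.eval₂RingHom (Int.castRingHom A) x)) y t
  refine ⟨k, ?_⟩
  rw [ev96_eq_eval_map, ev96_eq_eval_map, ev96_eq_eval_map, ← Polynomial.derivative_map]
  exact hk

/-- Evaluation commutes with ring homomorphisms. -/
theorem map_ev96 {B : Type*} [CommRing B] (f : A →+* B) (Ψ : ℤ[X][X]) (x y : A) :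
    f (ev96 Ψ x y) = ev96 Ψ (f x) (f y) := by
  unfold ev96
  rw [Polynomial.hom_eval₂]
  congr 1
  apply Polynomial.ringHom_ext
  · intro n
    simp
  · simp

/-- The double sum. -/
theorem ev96_eq_sum (Ψ : ℤ[X][X]) (x y : A) :
    ev96 Ψ x y = ∑ k ∈ Ψ.support, ∑ i ∈ (Ψ.coeff k).support,
      (((Ψ.coeff k).coeff i : ℤ) : A) * x ^ i * y ^ k := by
  unfold ev96
  rw [Polynomial.eval₂_eq_sum, Polynomial.sum_def]
  refine Finset.sum_congr rfl fun k _ => ?_
  rw [Polynomial.coe_eval₂RingHom, Polynomial.eval₂_eq_sum, Polynomial.sum_def, Finset.sum_mul]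
  refine Finset.sum_congr rfl fun i _ => ?_
  simp

end Ev


/-! ## Weighted reversal -/

section Rev

variable {A : Type*} [CommRing A]

theorem pow_mul_pow_of_inv96 {j J : A} (hjJ : j * J = 1) {m D : ℕ} (h : m ≤ D) :
    j ^ m * J ^ D = J ^ (D - m) := by
  obtain ⟨e, rfl⟩ := Nat.exists_eq_add_of_le h
  rw [Nat.add_sub_cancel_left, pow_add, ← mul_assoc, ← mul_pow, hjJ, one_pow, one_mul]

/-- **Weighted reversal.**  If every monomial `X^i Y^k` of `Ψ` has weight `q i + k < D`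
(or weight `≤ D` and coefficient divisible by `q`), then
`Ψ(j^q, j) / j^D ∈ J ℤ[J] + q A`, `J = 1/j`. -/
theorem weighted_rev96 (q : ℕ) {j J : A} (hjJ : j * J = 1) (Ψ : ℤ[X][X]) (D : ℕ)
    (h : ∀ k i, (Ψ.coeff k).coeff i ≠ 0 →
      q * i + k + 1 ≤ D ∨ (q * i + k ≤ D ∧ (q : ℤ) ∣ (Ψ.coeff k).coeff i)) :
    ∃ (c : ℤ[X]) (c' : A),
      ev96 Ψ (j ^ q) j * J ^ D = J * c.eval₂ (Int.castRingHom A) J + (q : A) * c' := by
  classical
  rw [ev96_eq_sum, Finset.sum_mul]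
  -- the predicate is stable under finite sums
  have hsum : ∀ (ι : Type) (s : Finset ι) (f : ι → A),
      (∀ a ∈ s, ∃ (c : ℤ[X]) (c' : A),
        f a = J * c.eval₂ (Int.castRingHom A) J + (q : A) * c') →
      ∃ (c : ℤ[X]) (c' : A),
        ∑ a ∈ s, f a = J * c.eval₂ (Int.castRingHom A) J + (q : A) * c' := by
    intro ι s f hf
    induction s using Finset.induction_on with
    | empty => exact ⟨0, 0, by simp⟩
    | insert a s ha ih =>
      obtain ⟨c₁, c₁', h₁⟩ := hf a (Finset.mem_insert_self a s)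
      obtain ⟨c₂, c₂', h₂⟩ := ih fun b hb => hf b (Finset.mem_insert_of_mem hb)
      refine ⟨c₁ + c₂, c₁' + c₂', ?_⟩
      rw [Finset.sum_insert ha, h₁, h₂, eval₂_add]
      ring
  refine hsum ℕ _ _ fun k _ => ?_
  rw [Finset.sum_mul]
  refine hsum ℕ _ _ fun i hi => ?_
  have hne : (Ψ.coeff k).coeff i ≠ 0 := Polynomial.mem_support_iff.mp hi
  have hpow : (j ^ q) ^ i * j ^ k = j ^ (q * i + k) := by
    rw [← pow_mul, ← pow_add]
  rcases h k i hne with h1 | ⟨h1, h2⟩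
  · obtain ⟨m, hm⟩ := Nat.exists_eq_add_of_le h1
    refine ⟨C ((Ψ.coeff k).coeff i) * X ^ m, 0, ?_⟩
    have e : D - (q * i + k) = m + 1 := by omega
    rw [eval₂_mul, eval₂_C, eval₂_X_pow, mul_zero, add_zero, mul_assoc, mul_assoc,
      ← mul_assoc ((j ^ q) ^ i), hpow, pow_mul_pow_of_inv96 hjJ (by omega : q * i + k ≤ D), e,
      pow_succ, eq_intCast]
    ring
  · obtain ⟨θ, hθ⟩ := h2
    refine ⟨0, (θ : A) * ((j ^ q) ^ i * j ^ k * J ^ D), ?_⟩
    rw [hθ, eval₂_zero, mul_zero, zero_add]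
    push_cast
    ring

end Rev


/-! ## The shape of the Kronecker remainder -/

section Shape

theorem kron_expand96 (q : ℕ) :
    ((X : ℤ[X][X]) ^ q - C X) * (X - C (X ^ q))
      = X ^ (q + 1) - C (X ^ q) * X ^ q - C X * X + C (X ^ (q + 1)) := by
  rw [map_pow, map_pow]
  ring

theorem kron_coeff96 (q : ℕ) (k i : ℕ) :
    ((((X : ℤ[X][X]) ^ q - C X) * (X - C (X ^ q))).coeff k).coeff i
      = (if k = q + 1 then (if i = 0 then 1 else 0) else 0)
        - (if k = q then (if i = q then 1 else 0) else 0)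
        - (if k = 1 then (if i = 1 then 1 else 0) else 0)
        + (if k = 0 then (if i = q + 1 then 1 else 0) else 0) := by
  rw [kron_expand96]
  rw [coeff_add, coeff_sub, coeff_sub, coeff_X_pow, coeff_C_mul_X_pow, coeff_C_mul_X, coeff_C]
  rw [coeff_add, coeff_sub, coeff_sub]
  congr 1
  · congr 1
    · congr 1
      · split_ifs with h1 h2 h2
        · simp [h2]
        · simp [coeff_one, h2]
        · simp
      · split_ifs with h1 h2 h2
        · simp [h2]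
        · simp [coeff_X_pow, h2]
        · simp
    · split_ifs with h1 h2 h2
      · simp [h2]
      · simp [coeff_X, h2]
        exact fun h => h2 h.symm
      · simp
  · split_ifs with h1 h2 h2
    · simp [h2]
    · simp [coeff_X_pow, h2]
    · simp

/-- The support of `Θ` in `Φ = (Y^q - X)(Y - X^q) + q Θ`, `Φ` of modular shape. -/
theorem theta_shape96 (q : ℕ) (hq : 2 ≤ q) {Φ Θ : ℤ[X][X]} (hΦ : IsModularShape q Φ)
    (hK : Φ = (X ^ q - C X) * (X - C (X ^ q)) + C (C (q : ℤ)) * Θ) (k i : ℕ)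
    (hne : (Θ.coeff k).coeff i ≠ 0) : k ≤ q ∧ i ≤ q + 1 ∧ (0 < k → i ≤ q) := by
  have key : (Φ.coeff k).coeff i
      = ((((X : ℤ[X][X]) ^ q - C X) * (X - C (X ^ q))).coeff k).coeff i
        + (q : ℤ) * (Θ.coeff k).coeff i := by
    conv_lhs => rw [hK]
    rw [coeff_add, coeff_add, coeff_C_mul, coeff_C_mul]
  rw [kron_coeff96] at key
  have hq0 : (q : ℤ) ≠ 0 := by
    have : q ≠ 0 := by omega
    exact_mod_cast this
  -- in the bad region `Φ` and the Kronecker product have the same coefficient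
  have hbad : ∀ v : ℤ, (Φ.coeff k).coeff i = v →
      (if k = q + 1 then (if i = 0 then (1 : ℤ) else 0) else 0)
        - (if k = q then (if i = q then 1 else 0) else 0)
        - (if k = 1 then (if i = 1 then 1 else 0) else 0)
        + (if k = 0 then (if i = q + 1 then 1 else 0) else 0) = v → False := by
    intro v hv hv'
    rw [hv, hv'] at key
    have : (q : ℤ) * (Θ.coeff k).coeff i = 0 := by linarith
    rcases mul_eq_zero.mp this with h | h
    · exact hq0 h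
    · exact hne h
  have hΦtop : Φ.coeff (q + 1) = 1 := by
    have := hΦ.monic.coeff_natDegree
    rwa [hΦ.natDegree_eq] at this
  -- the four bad cases
  have c1 : q + 1 < k → False := by
    intro h
    have h0 : Φ.coeff k = 0 :=
      Polynomial.coeff_eq_zero_of_natDegree_lt (by rw [hΦ.natDegree_eq]; exact h)
    refine hbad 0 (by rw [h0, coeff_zero]) ?_
    split_ifs <;> omega
  have c2 : k = q + 1 → False := by
    intro h
    by_cases hi : i = 0
    · refine hbad 1 (by rw [h, hΦtop, hi, coeff_one_zero]) ?_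
      split_ifs <;> omega
    · refine hbad 0 (by rw [h, hΦtop, coeff_one, if_neg hi]) ?_
      split_ifs <;> omega
  have c3 : 0 < k → k ≤ q → q < i → False := by
    intro hk0 hkq hi
    have hdeg : (Φ.coeff k).natDegree ≤ q := by
      rcases Nat.lt_or_ge k q with h' | h'
      · exact hΦ.coeff_mid k hk0 h'
      · have : k = q := by omega
        rw [this, hΦ.coeff_top_natDegree]
    have h0 : (Φ.coeff k).coeff i = 0 :=
      Polynomial.coeff_eq_zero_of_natDegree_lt (by omega)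
    refine hbad 0 h0 ?_
    split_ifs <;> omega
  have c4 : k = 0 → q + 1 < i → False := by
    intro hk0 hi
    have h0 : (Φ.coeff k).coeff i = 0 := by
      rw [hk0]
      exact Polynomial.coeff_eq_zero_of_natDegree_lt
        (by rw [hΦ.coeff_zero_natDegree]; exact hi)
    refine hbad 0 h0 ?_
    split_ifs <;> omega
  have hkq : k ≤ q := by
    by_contra hk
    rw [not_le] at hk
    rcases Nat.lt_or_ge (q + 1) k with h | h
    · exact c1 h
    · exact c2 (by omega)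
  refine ⟨hkq, ?_, ?_⟩
  · by_contra hi
    rw [not_le] at hi
    by_cases hk0 : k = 0
    · exact c4 hk0 hi
    · exact c3 (by omega) hkq (by omega)
  · intro hk
    by_contra hi
    rw [not_le] at hi
    exact c3 hk hkq hi

end Shape


/-! ## The Taylor identity -/

section Core

variable {A : Type*} [CommRing A] [IsDomain A]

/-- **The exact Taylor identity**: `B² ρ = Θ(j_q, j) - B² j^(q-1) - B Θ_Y(j_q, j) - π r`,
`B = j - j_q ^ q`, `q ρ = π ^ (q - 1)`. -/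
theorem cusp_taylor96 (q : ℕ) (hq : q.Prime) (Θ : ℤ[X][X]) {j jq π ρ : A}
    (h1 : (j ^ q - jq) * (j - jq ^ q) + (q : A) * ev96 Θ jq j = 0)
    (h2 : ((j + π) ^ q - jq) * ((j + π) - jq ^ q) + (q : A) * ev96 Θ jq (j + π) = 0)
    (hπ0 : π ≠ 0) (hq0 : (q : A) ≠ 0) (hρ : (q : A) * ρ = π ^ (q - 1)) :
    ∃ r : A, (j - jq ^ q) ^ 2 * ρ
      = ev96 Θ jq j - (j - jq ^ q) ^ 2 * j ^ (q - 1)
        - (j - jq ^ q) * ev96 (derivative Θ) jq j - π * r := by
  obtain ⟨s, hs⟩ := add_pow_prime96 q hq j π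
  obtain ⟨k₂, hk₂⟩ := ev96_taylor Θ jq j π
  have hpq : π ^ q = π * ((q : A) * ρ) := by
    rw [hρ, ← pow_succ']
    congr 1
    have := hq.pos
    omega
  obtain ⟨σ, hσ⟩ : ∃ σ : A, σ = ρ + j ^ (q - 1) + π * s := ⟨_, rfl⟩
  have hδ : (j + π) ^ q = j ^ q + (q : A) * π * σ := by
    linear_combination hs + hpq - (q : A) * π * hσ
  rw [hδ, hk₂] at h2
  have e1 : π * ((j ^ q - jq) + (q : A) * σ * ((j - jq ^ q) + π)
      + (q : A) * (ev96 (derivative Θ) jq j + k₂ * π)) = 0 := by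
    linear_combination h2 - h1
  have e2 : (j ^ q - jq) + (q : A) * σ * ((j - jq ^ q) + π)
      + (q : A) * (ev96 (derivative Θ) jq j + k₂ * π) = 0 := by
    rcases mul_eq_zero.mp e1 with h | h
    · exact absurd h hπ0
    · exact h
  have e3 : (q : A) * ((j - jq ^ q) * (σ * ((j - jq ^ q) + π)
      + ev96 (derivative Θ) jq j + k₂ * π) - ev96 Θ jq j) = 0 := by
    linear_combination (j - jq ^ q) * e2 - h1
  have e4 : (j - jq ^ q) * (σ * ((j - jq ^ q) + π)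
      + ev96 (derivative Θ) jq j + k₂ * π) - ev96 Θ jq j = 0 := by
    rcases mul_eq_zero.mp e3 with h | h
    · exact absurd h hq0
    · exact h
  refine ⟨(j - jq ^ q) ^ 2 * s + (j - jq ^ q) * σ + (j - jq ^ q) * k₂, ?_⟩
  linear_combination e4 - (j - jq ^ q) ^ 2 * hσ


/-- Weighted reversal of `Θ` (weight `< 2 q² + q - 1`). -/
theorem theta_rev96 {B : Type*} [CommRing B] (q : ℕ) (hq : 2 ≤ q) {Φ Θ : ℤ[X][X]}
    (hΦ : IsModularShape q Φ)
    (hK : Φ = (X ^ q - C X) * (X - C (X ^ q)) + C (C (q : ℤ)) * Θ)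
    {x u : B} (hxu : x * u = 1) (D : ℕ) (hD : q * q + 2 * q + 1 ≤ D) :
    ∃ (c : ℤ[X]) (c' : B),
      ev96 Θ (x ^ q) x * u ^ D = u * c.eval₂ (Int.castRingHom B) u + (q : B) * c' := by
  refine weighted_rev96 q hxu Θ D fun k i hne => Or.inl ?_
  obtain ⟨hk, hi, -⟩ := theta_shape96 q hq hΦ hK k i hne
  have h1 : q * i ≤ q * (q + 1) := Nat.mul_le_mul_left q hi
  rw [Nat.mul_succ] at h1
  omega

/-- Weighted reversal of `Θ_Y` (weight `≤ q² + q - 1`, top coefficient divisible by `q`). -/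
theorem theta_der_rev96 {B : Type*} [CommRing B] (q : ℕ) (hq : 2 ≤ q) {Φ Θ : ℤ[X][X]}
    (hΦ : IsModularShape q Φ)
    (hK : Φ = (X ^ q - C X) * (X - C (X ^ q)) + C (C (q : ℤ)) * Θ)
    {x u : B} (hxu : x * u = 1) (D : ℕ) (hD : q * q + q = D + 1) :
    ∃ (c : ℤ[X]) (c' : B),
      ev96 (derivative Θ) (x ^ q) x * u ^ D
        = u * c.eval₂ (Int.castRingHom B) u + (q : B) * c' := by
  refine weighted_rev96 q hxu (derivative Θ) D fun k i hne => ?_
  have hcoef : ((derivative Θ).coeff k).coeff i = (Θ.coeff (k + 1)).coeff i * ((k : ℤ) + 1) := by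
    rw [coeff_derivative]
    have : ((k : ℤ[X]) + 1) = C ((k : ℤ) + 1) := by simp
    rw [this, coeff_mul_C]
  rw [hcoef] at hne ⊢
  have hne' : (Θ.coeff (k + 1)).coeff i ≠ 0 := fun h => hne (by rw [h, zero_mul])
  obtain ⟨hk, -, hi⟩ := theta_shape96 q hq hΦ hK (k + 1) i hne'
  have hi' := hi (Nat.succ_pos k)
  rcases Nat.lt_or_ge i q with h | h
  · left
    have h1 : q * (i + 1) ≤ q * q := Nat.mul_le_mul_left q h
    rw [Nat.mul_succ] at h1
    omega
  · have hiq : i = q := le_antisymm hi' h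
    subst hiq
    rcases Nat.lt_or_ge (k + 1) i with h' | h'
    · left
      omega
    · right
      have hk' : k + 1 = i := le_antisymm hk h'
      refine ⟨by omega, ?_⟩
      refine Dvd.intro_left ((Θ.coeff (k + 1)).coeff i) ?_
      rw [← hk']
      push_cast
      ring

/-- **The cusp congruence, abstract form.** -/
theorem cusp_core96 (I : Ideal A) (q : ℕ) (hq : q.Prime) {Φ Θ : ℤ[X][X]}
    (hΦ : IsModularShape q Φ)
    (hK : Φ = (X ^ q - C X) * (X - C (X ^ q)) + C (C (q : ℤ)) * Θ)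
    {j jq jqq J Jq ρ : A} (hjJ : j * J = 1) (hjqJq : jq * Jq = 1)
    (h1 : ev96 Φ jq j = 0) (h2 : ev96 Φ jq jqq = 0)
    (hπ0 : jqq - j ≠ 0) (hq0 : (q : A) ≠ 0)
    (hπ : jqq - j ∈ I) (hqI : (q : A) ∈ I) (hkron : jq - j ^ q ∈ I)
    (hρ : (q : A) * ρ = (jqq - j) ^ (q - 1)) :
    ∃ C₀ : ℤ[X], ρ * (1 - j * Jq ^ q) ^ 2 * J ^ (q - 1)
      + (1 + J * C₀.eval₂ (Int.castRingHom A) J) ∈ I := by
  have hq2 := hq.two_le
  rw [hK, ev96_kron] at h1 h2
  have h2' : ((j + (jqq - j)) ^ q - jq) * ((j + (jqq - j)) - jq ^ q)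
      + (q : A) * ev96 Θ jq (j + (jqq - j)) = 0 := by
    rw [show j + (jqq - j) = jqq by ring]
    exact h2
  obtain ⟨r, hr⟩ := cusp_taylor96 q hq Θ h1 h2' hπ0 hq0 hρ
  -- the quotient ring
  obtain ⟨mk, hmk⟩ : ∃ mk : A →+* A ⧸ I, mk = Ideal.Quotient.mk I := ⟨_, rfl⟩
  have hmem : ∀ a : A, a ∈ I ↔ mk a = 0 := fun a => by
    rw [hmk]
    exact Ideal.Quotient.eq_zero_iff_mem.symm
  obtain ⟨x, hx⟩ : ∃ x, x = mk j := ⟨_, rfl⟩
  obtain ⟨u, hu⟩ : ∃ u, u = mk J := ⟨_, rfl⟩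
  have hxu : x * u = 1 := by rw [hx, hu, ← map_mul, hjJ, map_one]
  have hπQ : mk (jqq - j) = 0 := (hmem _).mp hπ
  have hqQ : ((q : ℕ) : A ⧸ I) = 0 := by
    have := (hmem _).mp hqI
    rwa [map_natCast] at this
  have hjqQ : mk jq = x ^ q := by
    have := (hmem _).mp hkron
    rw [map_sub, map_pow, sub_eq_zero] at this
    rw [this, hx]
  have hJqQ : mk Jq = u ^ q := by
    have e : Jq - J ^ q = Jq * J ^ q * (j ^ q - jq) := by
      have h3 : J ^ q * j ^ q = 1 := by rw [← mul_pow, mul_comm, hjJ, one_pow]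
      linear_combination (-Jq) * h3 + J ^ q * hjqJq
    have hmemJ : Jq - J ^ q ∈ I := by
      rw [e]
      refine I.mul_mem_left _ ?_
      have := I.neg_mem hkron
      rwa [neg_sub] at this
    have := (hmem _).mp hmemJ
    rw [map_sub, map_pow, sub_eq_zero] at this
    rw [this, hu]
  -- exponents
  obtain ⟨n, hn⟩ : ∃ n, q = n + 1 := ⟨q - 1, by omega⟩
  have hqq : 2 * q ≤ q * q := Nat.mul_le_mul_right q hq2
  obtain ⟨N₂, hN₂⟩ : ∃ N₂, q * q = N₂ + 2 := ⟨q * q - 2, by omega⟩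
  -- weighted reversals in the quotient
  obtain ⟨c₁, c₁', hc₁⟩ := theta_rev96 (B := A ⧸ I) q hq2 hΦ hK hxu (2 * (N₂ + 2) + n)
    (by omega)
  obtain ⟨c₃, c₃', hc₃⟩ := theta_der_rev96 (B := A ⧸ I) q hq2 hΦ hK hxu (N₂ + 2 + n)
    (by omega)
  rw [hqQ, zero_mul, add_zero] at hc₁ hc₃
  -- the image of the Taylor identity
  have hrQ := congrArg mk hr
  simp only [map_sub, map_mul, map_pow, map_ev96, hπQ, zero_mul, sub_zero, hjqQ, ← hx] at hrQ
  -- `B u^(q²) = E`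
  have hE : (x - (x ^ q) ^ q) * u ^ (N₂ + 2) = u ^ (N₂ + 1) - 1 := by
    have h4 : (x ^ q) ^ q * u ^ (N₂ + 2) = 1 := by
      rw [← pow_mul, hN₂, ← mul_pow, hxu, one_pow]
    have h5 : x * u ^ (N₂ + 2) = u ^ (N₂ + 1) := by
      rw [pow_succ, mul_comm (u ^ (N₂ + 1)), ← mul_assoc, hxu, one_mul]
    rw [sub_mul, h4, h5]
  have hxn : x ^ n * u ^ n = 1 := by rw [← mul_pow, hxu, one_pow]
  have hqn : q - 1 = n := by omega
  refine ⟨-c₁ + (X ^ (N₂ + 1) - 1) * c₃ - 2 * X ^ N₂ + X ^ (2 * N₂ + 1), ?_⟩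
  rw [hmem]
  have haev : ∀ p : ℤ[X], mk (p.eval₂ (Int.castRingHom A) J)
      = p.eval₂ (Int.castRingHom (A ⧸ I)) u := by
    intro p
    rw [hu, Polynomial.hom_eval₂]
    congr 1
    exact RingHom.ext_int _ _
  simp only [map_add, map_sub, map_mul, map_pow, map_one, haev, hJqQ, ← hx, ← hu, map_neg,
    eval₂_add, eval₂_sub, eval₂_mul, eval₂_neg, eval₂_pow, eval₂_X, eval₂_one, eval₂_ofNat, hqn]
  rw [hqn] at hrQ
  have hE' : (1 : A ⧸ I) - x * (u ^ q) ^ q = -(u ^ (N₂ + 1) - 1) := by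
    rw [← pow_mul, hN₂, pow_succ, mul_comm (u ^ (N₂ + 1)), ← mul_assoc, hxu, one_mul]
    ring
  rw [hE']
  -- multiply the identity by `u ^ (2 q² + n)`
  have key : (u ^ (N₂ + 1) - 1) ^ 2 * mk ρ * u ^ n
      = u * c₁.eval₂ (Int.castRingHom (A ⧸ I)) u - (u ^ (N₂ + 1) - 1) ^ 2
        - (u ^ (N₂ + 1) - 1) * (u * c₃.eval₂ (Int.castRingHom (A ⧸ I)) u) := by
    rw [← hc₁, ← hc₃, ← hE]
    linear_combination (u ^ (N₂ + 2)) ^ 2 * u ^ n * hrQ
      - (x - (x ^ q) ^ q) ^ 2 * (u ^ (N₂ + 2)) ^ 2 * hxn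
  have h2Q : mk 2 = 2 := map_ofNat mk 2
  rw [h2Q]
  linear_combination key

end Core

/-! ## Valuation form -/

section Val

variable {K : Type*} [Field K]

theorem mem_maximalIdeal_iff96 (V : ValuationSubring K) (y : V) :
    y ∈ IsLocalRing.maximalIdeal V ↔ (y : K) ∈ V.nonunits := by
  rw [ValuationSubring.mem_nonunits_iff_exists_mem_maximalIdeal]
  constructor
  · intro h
    exact ⟨y.2, h⟩
  · rintro ⟨_, h⟩
    exact h

theorem coe_ev96 (V : ValuationSubring K) (Ψ : ℤ[X][X]) (x y : V) :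
    ((ev96 Ψ x y : V) : K) = ev96 Ψ (x : K) (y : K) :=
  map_ev96 V.subtype Ψ x y

theorem coe_eval₂_int96 (V : ValuationSubring K) (p : ℤ[X]) (x : V) :
    ((p.eval₂ (Int.castRingHom V) x : V) : K) = p.eval₂ (Int.castRingHom K) (x : K) := by
  have h := Polynomial.hom_eval₂ p (Int.castRingHom V) V.subtype x
  have e : V.subtype.comp (Int.castRingHom V) = Int.castRingHom K := RingHom.ext_int _ _
  rw [e] at h
  exact h

/-- **The cusp congruence, valuation form.**  `a = j`, `b = j_q`, `c = j_{q²}`, `W = w`,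
`q = W U`, `V` the valuation ring of the middle component. -/
theorem cusp_cong_val96 (V : ValuationSubring K) (q : ℕ) (hq : q.Prime) {Φ Θ : ℤ[X][X]}
    (hΦ : IsModularShape q Φ)
    (hK : Φ = (X ^ q - C X) * (X - C (X ^ q)) + C (C (q : ℤ)) * Θ)
    {a b c W U U' : K}
    (ha0 : a ≠ 0) (ha : a ∈ V) (ha' : a⁻¹ ∈ V)
    (hb0 : b ≠ 0) (hb : b ∈ V) (hb' : b⁻¹ ∈ V)
    (hc0 : c ≠ 0) (hc : c ∈ V) (hc' : c⁻¹ ∈ V)
    (h1 : ev96 Φ b a = 0) (h2 : ev96 Φ b c = 0)
    (hπ0 : c - a ≠ 0) (hπ : c - a ∈ V.nonunits) (hkron : b - a ^ q ∈ V.nonunits)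
    (hW0 : W ≠ 0) (hWm : W ∈ V.nonunits) (hU : U ∈ V) (hU' : U' ∈ V) (hUU' : U * U' = 1)
    (hqW : (q : K) = W * U) (hpow : (c - a) ^ (q - 1) * W⁻¹ ∈ V) :
    ∃ C₀ : ℤ[X], ∀ hv g : K, hv = 1 + a⁻¹ * C₀.eval₂ (Int.castRingHom K) a⁻¹ →
      g = -U' * (1 - a * (b ^ q)⁻¹) ^ 2 →
      (((c - a) * b * (a ^ q * c)⁻¹) ^ (q - 1) * g - W ^ 1 * hv ^ 1) * (W ^ 1)⁻¹
        ∈ V.nonunits := by
  obtain ⟨n, hn⟩ : ∃ n, q = n + 1 := ⟨q - 1, by have := hq.pos; omega⟩
  have hqn : q - 1 = n := by omega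
  rw [hqn] at hpow
  -- elements of `V`
  obtain ⟨jV, hjV⟩ : ∃ y : V, (y : K) = a := ⟨⟨a, ha⟩, rfl⟩
  obtain ⟨JV, hJV⟩ : ∃ y : V, (y : K) = a⁻¹ := ⟨⟨a⁻¹, ha'⟩, rfl⟩
  obtain ⟨jqV, hjqV⟩ : ∃ y : V, (y : K) = b := ⟨⟨b, hb⟩, rfl⟩
  obtain ⟨JqV, hJqV⟩ : ∃ y : V, (y : K) = b⁻¹ := ⟨⟨b⁻¹, hb'⟩, rfl⟩
  obtain ⟨jqqV, hjqqV⟩ : ∃ y : V, (y : K) = c := ⟨⟨c, hc⟩, rfl⟩
  obtain ⟨JqqV, hJqqV⟩ : ∃ y : V, (y : K) = c⁻¹ := ⟨⟨c⁻¹, hc'⟩, rfl⟩
  obtain ⟨ρV, hρV⟩ : ∃ y : V, (y : K) = (c - a) ^ n * W⁻¹ * U' :=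
    ⟨⟨(c - a) ^ n * W⁻¹ * U', V.mul_mem _ _ hpow hU'⟩, rfl⟩
  have hWW : W * W⁻¹ = 1 := mul_inv_cancel₀ hW0
  have inj : ∀ {y z : V}, (y : K) = (z : K) → y = z := fun h => Subtype.ext h
  have hjJ : jV * JV = 1 := inj (by push_cast; rw [hjV, hJV, mul_inv_cancel₀ ha0])
  have hjqJq : jqV * JqV = 1 := inj (by push_cast; rw [hjqV, hJqV, mul_inv_cancel₀ hb0])
  have hjqqJqq : jqqV * JqqV = 1 := inj (by push_cast; rw [hjqqV, hJqqV, mul_inv_cancel₀ hc0])
  have e1 : ev96 Φ jqV jV = 0 := inj (by rw [coe_ev96, hjqV, hjV, h1]; rfl)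
  have e2 : ev96 Φ jqV jqqV = 0 := inj (by rw [coe_ev96, hjqV, hjqqV, h2]; rfl)
  have hπ0V : jqqV - jV ≠ 0 := by
    intro h
    apply hπ0
    have := congrArg (fun y : V => (y : K)) h
    simpa [hjqqV, hjV] using this
  have hqK0 : (q : K) ≠ 0 := by
    rw [hqW]
    intro h
    rcases mul_eq_zero.mp h with h | h
    · exact hW0 h
    · rw [h, zero_mul] at hUU'
      exact zero_ne_one hUU'
  have hq0V : ((q : ℕ) : V) ≠ 0 := by
    intro h
    apply hqK0
    have := congrArg (fun y : V => (y : K)) h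
    simpa using this
  have hπV : jqqV - jV ∈ IsLocalRing.maximalIdeal V := by
    rw [mem_maximalIdeal_iff96]
    push_cast
    rw [hjqqV, hjV]
    exact hπ
  have hqV : ((q : ℕ) : V) ∈ IsLocalRing.maximalIdeal V := by
    rw [mem_maximalIdeal_iff96]
    push_cast
    rw [hqW, mul_comm]
    have := (IsLocalRing.maximalIdeal V).mul_mem_left ⟨U, hU⟩
      ((mem_maximalIdeal_iff96 V ⟨W, V.nonunits_le hWm⟩).mpr hWm)
    rw [mem_maximalIdeal_iff96] at this
    simpa using this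
  have hkronV : jqV - jV ^ q ∈ IsLocalRing.maximalIdeal V := by
    rw [mem_maximalIdeal_iff96]
    push_cast
    rw [hjqV, hjV]
    exact hkron
  have hρ : ((q : ℕ) : V) * ρV = (jqqV - jV) ^ (q - 1) := by
    apply inj
    push_cast
    rw [hρV, hjqqV, hjV, hqW, hqn]
    linear_combination (c - a) ^ n * U * U' * hWW + (c - a) ^ n * hUU'
  obtain ⟨C₀, hC₀⟩ := cusp_core96 (IsLocalRing.maximalIdeal V) q hq hΦ hK hjJ hjqJq e1 e2
    hπ0V hq0V hπV hqV hkronV hρ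
  refine ⟨C₀, fun hv g hhv hg => ?_⟩
  -- `z = zcusp`
  obtain ⟨zV, hzV⟩ : ∃ zV : V, zV = jqV * JV ^ n * JqqV := ⟨_, rfl⟩
  have hz1 : zV - 1 ∈ IsLocalRing.maximalIdeal V := by
    have e : zV - 1 = ((jqV - jV ^ q) - jV ^ n * (jqqV - jV)) * (JV ^ n * JqqV) := by
      have h3 : jV ^ n * JV ^ n = 1 := by rw [← mul_pow, hjJ, one_pow]
      rw [hzV, hn, pow_succ]
      linear_combination (jV ^ n * JV ^ n) * hjqqJqq + h3
    rw [e]
    exact Ideal.mul_mem_right _ _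
      (Ideal.sub_mem _ hkronV (Ideal.mul_mem_left _ _ hπV))
  have hzn : zV ^ n - 1 ∈ IsLocalRing.maximalIdeal V := by
    obtain ⟨d, hd⟩ := sub_dvd_pow_sub_pow zV 1 n
    rw [one_pow] at hd
    rw [hd]
    exact Ideal.mul_mem_right _ _ hz1
  have hT : -((ρV * (1 - jV * JqV ^ q) ^ 2 * JV ^ (q - 1)
        + (1 + JV * C₀.eval₂ (Int.castRingHom V) JV)) * zV ^ n
      - (1 + JV * C₀.eval₂ (Int.castRingHom V) JV) * (zV ^ n - 1))
      ∈ IsLocalRing.maximalIdeal V :=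
    neg_mem (Ideal.sub_mem _ (Ideal.mul_mem_right _ _ hC₀) (Ideal.mul_mem_left _ _ hzn))
  rw [mem_maximalIdeal_iff96] at hT
  have key : (((c - a) * b * (a ^ q * c)⁻¹) ^ (q - 1) * g - W ^ 1 * hv ^ 1) * (W ^ 1)⁻¹
      = ((-((ρV * (1 - jV * JqV ^ q) ^ 2 * JV ^ (q - 1)
        + (1 + JV * C₀.eval₂ (Int.castRingHom V) JV)) * zV ^ n
      - (1 + JV * C₀.eval₂ (Int.castRingHom V) JV) * (zV ^ n - 1)) : V) : K) := by
    push_cast
    rw [coe_eval₂_int96, hzV]
    push_cast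
    rw [hρV, hjV, hJV, hJqV, hjqV, hJqqV, hg, hhv, hqn, pow_one, pow_one]
    have ht : (c - a) * b * (a ^ q * c)⁻¹ = (c - a) * (b * (a⁻¹) ^ n * c⁻¹) * a⁻¹ := by
      rw [hn, mul_inv, ← inv_pow, pow_succ]
      ring
    rw [ht, mul_pow, mul_pow, ← inv_pow b q]
    linear_combination (-(1 + a⁻¹ * C₀.eval₂ (Int.castRingHom K) a⁻¹)) * hWW
  rw [key]
  exact hT

end Val

end Fermat.Agent.S36.Mod3.H96
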