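import Fermat.Agent.S36.Mod3.H96.CuspAbs
import Fermat.Agent.S36.Mod3.H276.RegI
import Fermat.Agent.S36.Mod3.H27.VT
import Fermat.Agent.S36.Mod3.H370.Val
import Fermat.Agent.S36.Mod3.H860.Sheet
import Fermat.Agent.S28.H88.Kronecker

/-!
# S36 / MOD3, cell REG (R-I): `H276.LeafCuspCong`, ELEMENTARY proof (helper96)

The cusp congruence `tcusp ^ (q - 1) · g₂ ≡ w · h` modulo `w · 𝔪_{V₂}` (`k = 1`, `N = q - 1`,
`n = 1`, `h = 1 + j⁻¹ c`, `g₂ = -u⁻¹ (1 - j / j_q ^ q)²`, `q = w u`), the single input of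
`regular_i` (`H276.leafRegI_of`).

Independent of (R-RES): no modular unit, no Hasse polynomial, no Eisenstein series; only the
Kronecker decomposition of `Φ_q` over `ℤ` (`S28.h88_kronecker_int`), its shape
(`S15.H386.isModularShape_of_modPolyData`), the modular equations `Φ_q(j_q, j) = 0 =
Φ_q(j_q, j_{q²})` and the fields `pi_unif`, `pi_pow`, `kron₂` of `LeafVT`
(abstract core: `H96.cusp_core96`, Taylor expansion of `Φ_q(j_q, ·)` at `j`).

* `leafCuspCong_of96 : LeafVT → LeafVal → LeafSheet → H276.LeafCuspCong`;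
* `leafCuspCong96    : H276.LeafCuspCong` (unconditional, leaves from main plugged).
-/

set_option autoImplicit false
set_option linter.style.haveILetI false
set_option linter.unusedSectionVars false
set_option synthInstance.maxHeartbeats 400000
set_option maxHeartbeats 1600000

noncomputable section

namespace Fermat.Agent.S36.Mod3.H96

open ModularCurve Polynomial
open Fermat.Agent.S18.H138 (chart mem_chart mem_chart_of_mem)
open Fermat.Agent Fermat.Agent.S36.Eng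

section Cong

variable (P : ValuationSubring A2.Qb) (E : IntermediateField ℚ A2.Qb) (M q : ℕ)
  [NeZero M] [NeZero q] [NeZero (M * q)]

/-- **The cusp congruence** from the valuation-level table. -/
theorem cuspCong96 (hq : q.Prime) (w : A2.RE P E) (hun : S36.H972.Unram P E q w)
    (V₁ V₂ V₃ : ValuationSubring (A2.Mod.FE E (M * q * q)))
    (V₁' V₂' : ValuationSubring (A2.Mod.FE E (M * q)))
    (hval : PartVal (R := A2.RE P E) w q (x3E E M q) V₁ V₂ V₃)
    (hsheet : PartSheet (R := A2.RE P E) w (x3E E M q) V₁ V₂ V₃)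
    (hvt : PartVT (R := A2.RE P E) w q (A2.Mod.αE E (M * q) q) (A2.Mod.βE E (M * q) q)
      (j1 E M q) (jq E M q) (jqq E M q) V₁ V₂ V₃ V₁' V₂') :
    H276.CuspCong P E M q w V₂ := by
  haveI : Fact q.Prime := ⟨hq⟩
  obtain ⟨D⟩ := S28.H807.nonempty_modPolyData q hq
  have hΦ := S15.H386.isModularShape_of_modPolyData D hq.one_lt
  obtain ⟨Θ, hK⟩ := S28.h88_kronecker_int q D
  obtain ⟨⟨a0, a1, a2⟩, ⟨b0, b1, b2⟩, ⟨c0, c1, c2⟩⟩ :=
    H276.unitAt_of_x_unit E M q hq V₂ hval.x_unit₂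
  obtain ⟨u, hu⟩ := hun
  -- the constants
  have hW0 : algebraMap (A2.RE P E) (A2.Mod.FE E (M * q * q)) w ≠ 0 := hval.unif₁.1
  have hWm := H276.w_mem_nonunits_of_ram hq.two_le hval.ram₂
  have hUU' : algebraMap (A2.RE P E) (A2.Mod.FE E (M * q * q)) (u : A2.RE P E)
      * algebraMap (A2.RE P E) (A2.Mod.FE E (M * q * q)) ((u⁻¹ : (A2.RE P E)ˣ) : A2.RE P E)
      = 1 := by
    rw [← map_mul, Units.mul_inv, map_one]
  have hqW : ((q : ℕ) : A2.Mod.FE E (M * q * q))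
      = algebraMap (A2.RE P E) (A2.Mod.FE E (M * q * q)) w
        * algebraMap (A2.RE P E) (A2.Mod.FE E (M * q * q)) (u : A2.RE P E) := by
    have h1 : algebraMap (A2.RE P E) (A2.Mod.FE E (M * q * q)) w
        = algebraMap E (A2.Mod.FE E (M * q * q)) (w : E) := rfl
    have h2 : algebraMap (A2.RE P E) (A2.Mod.FE E (M * q * q)) (u : A2.RE P E)
        = algebraMap E (A2.Mod.FE E (M * q * q)) ((u : A2.RE P E) : E) := rfl
    rw [h1, h2, ← map_mul, ← hu, map_natCast]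
  have hpow : (jqq E M q - j1 E M q) ^ (q - 1)
      * (algebraMap (A2.RE P E) (A2.Mod.FE E (M * q * q)) w)⁻¹ ∈ V₂ := by
    have := hvt.pi_pow.2.2
    rw [mul_inv, inv_inv] at this
    rw [mul_comm ((jqq E M q - j1 E M q) ^ (q - 1))]
    exact this
  obtain ⟨C₀, hC₀⟩ := cusp_cong_val96 V₂ q hq hΦ hK a0 a1 a2 b0 b1 b2 c0 c1 c2
    (H276.eval2_jq_j1 E M q D) (H276.eval2_jq_jqq E M q D) hvt.pi_unif.1 hvt.pi_unif.2.1
    hvt.kron₂.1 hW0 hWm (hsheet.base₂ _) (hsheet.base₂ _) hUU' hqW hpow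
  -- the elements of the chart at infinity
  obtain ⟨Jel, hJel⟩ : ∃ y : chart (A2.RE P E)
      ({(x3E E M q)⁻¹} : Set (A2.Mod.FE E (M * q * q))),
      (y : A2.Mod.FE E (M * q * q)) = (j1 E M q)⁻¹ :=
    ⟨⟨_, H189.j1_inv_mem_chart P E M q hq⟩, rfl⟩
  obtain ⟨eel, heel⟩ : ∃ y : chart (A2.RE P E)
      ({(x3E E M q)⁻¹} : Set (A2.Mod.FE E (M * q * q))),
      (y : A2.Mod.FE E (M * q * q)) = j1 E M q * (jq E M q ^ q)⁻¹ :=
    ⟨⟨_, H276.eba_mem_chart P E M q hq⟩, rfl⟩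
  have hcoe : ((C₀.eval₂ (Int.castRingHom _) Jel : chart (A2.RE P E)
      ({(x3E E M q)⁻¹} : Set (A2.Mod.FE E (M * q * q)))) : A2.Mod.FE E (M * q * q))
      = C₀.eval₂ (Int.castRingHom _) (j1 E M q)⁻¹ := by
    have h := Polynomial.hom_eval₂ C₀ (Int.castRingHom (chart (A2.RE P E)
      ({(x3E E M q)⁻¹} : Set (A2.Mod.FE E (M * q * q)))))
      (chart (A2.RE P E) ({(x3E E M q)⁻¹} : Set (A2.Mod.FE E (M * q * q)))).val.toRingHom Jel
    have e : ((chart (A2.RE P E)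
        ({(x3E E M q)⁻¹} : Set (A2.Mod.FE E (M * q * q)))).val.toRingHom).comp
        (Int.castRingHom _) = Int.castRingHom _ := RingHom.ext_int _ _
    rw [e] at h
    rw [← hJel]
    exact h
  refine ⟨1 + Jel * C₀.eval₂ (Int.castRingHom _) Jel, C₀.eval₂ (Int.castRingHom _) Jel,
    -(algebraMap (A2.RE P E) _ ((u⁻¹ : (A2.RE P E)ˣ) : A2.RE P E)) * (1 - eel) ^ 2,
    1, 1, q - 1, ?_, ?_, ?_⟩
  · have := hq.two_le
    omega
  · push_cast
    rw [hJel]
  · refine hC₀ _ _ ?_ ?_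
    · push_cast
      rw [hJel, hcoe]
    · push_cast
      rw [heel]

end Cong

/-! ## The leaf -/

section Leaves

/-- **`H276.LeafCuspCong`** from the hub `LeafVT` (+ `LeafVal`, `LeafSheet`). -/
theorem leafCuspCong_of96 (hVT : LeafVT) (hVal : LeafVal) (hSheet : LeafSheet) :
    H276.LeafCuspCong := by
  intro P E M q _ _ _ w hstd V₁' V₂' V₁ V₂ V₃ W' W hobj
  exact cuspCong96 P E M q hstd.q_prime w (H27.vt27_unram hstd) V₁ V₂ V₃ V₁' V₂'
    (hVal P E M q w hstd V₁' V₂' V₁ V₂ V₃ W' W hobj)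
    (hSheet P E M q w hstd V₁' V₂' V₁ V₂ V₃ W' W hobj)
    (hVT P E M q w hstd V₁' V₂' V₁ V₂ V₃ W' W hobj)

/-- **`H276.LeafCuspCong`, unconditional.** -/
theorem leafCuspCong96 : H276.LeafCuspCong :=
  leafCuspCong_of96 H27.leafVT H370.leafVal H860.leafSheet

end Leaves

end Fermat.Agent.S36.Mod3.H96

end
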